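/-
ALPHA / package FIN (helper4): **finiteness of the torsion of `J₀(N)`**.

`alpf_finite : Finite ↥(Submodule.torsionBy ℤ (JZero N) (m : ℤ))` for `m ≠ 0`.

Route: the Kummer group `tWsub ℚ̄ N m = {y ∈ F^× : m ∣ ord_P y ∀ P}` maps onto `J₀(N)[m]` by
`y ↦ [div(y)/m]`, killing the `m`-th powers, and `tWsub / m-th powers ≃ X_m` (characters of `Γ₀(N)`)
is finite by the monodromy isomorphism of T1-D (`(tddDescent N).psiEquiv`, `tdm_finite_X`).
-/
import Fermat.Agent.Lib.T1.Dict.DescentSurj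
import Fermat.Agent.Lib.S24.Count
import Fermat.Agent.Lib.Curve.Global
import Fermat.Prelude.Def_ModularCurve_ArithmeticGalois

set_option autoImplicit false
set_option linter.style.haveILetI false

namespace Fermat.Agent.Alpha

open AlgebraicCurve ModularCurve Fermat.Agent.T1

local notation "Kbar" => AlgebraicClosure ℚ

/-! ### The Kummer map for a general function field -/

section General

variable {K F : Type*} [Field K] [Field F] [Algebra K F] [HasPrincipalDivisors K F]

/-- the divisor of a nonzero function -/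
noncomputable def alpfDiv (y : Fˣ) : Divisor K F :=
  Classical.choose (HasPrincipalDivisors.exists_divisor (K := K) (y : F) y.ne_zero)

theorem alpfDiv_apply (y : Fˣ) (v : Place K F) : alpfDiv (K := K) y v = v.ord (y : F) :=
  (Classical.choose_spec (HasPrincipalDivisors.exists_divisor (K := K) (y : F) y.ne_zero)).1 v

theorem alpfDiv_degree (y : Fˣ) : Divisor.degree (alpfDiv (K := K) y) = 0 :=
  (Classical.choose_spec (HasPrincipalDivisors.exists_divisor (K := K) (y : F) y.ne_zero)).2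

/-- the divisor `div(y) / m` -/
noncomputable def alpfDivQuot (m : ℕ) (y : Fˣ) : Divisor K F :=
  Finsupp.mapRange (fun a : ℤ => a / (m : ℤ)) (by simp) (alpfDiv (K := K) y)

theorem alpfDivQuot_apply (m : ℕ) (y : Fˣ) (v : Place K F) :
    alpfDivQuot (K := K) m y v = v.ord (y : F) / (m : ℤ) := by
  rw [alpfDivQuot, Finsupp.mapRange_apply, alpfDiv_apply]

theorem alpf_smul_divQuot {m : ℕ} {y : Fˣ} (hy : ∀ v : Place K F, (m : ℤ) ∣ v.ord (y : F)) :
    (m : ℤ) • alpfDivQuot (K := K) m y = alpfDiv (K := K) y := by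
  ext v
  rw [Finsupp.smul_apply, alpfDivQuot_apply, alpfDiv_apply, smul_eq_mul]
  exact Int.mul_ediv_cancel' (hy v)

theorem alpfDivQuot_degree {m : ℕ} (hm : m ≠ 0) {y : Fˣ}
    (hy : ∀ v : Place K F, (m : ℤ) ∣ v.ord (y : F)) :
    Divisor.degree (alpfDivQuot (K := K) m y) = 0 := by
  have h1 : (m : ℤ) • Divisor.degree (alpfDivQuot (K := K) m y) = 0 := by
    rw [← map_zsmul, alpf_smul_divQuot hy, alpfDiv_degree]
  rw [smul_eq_mul] at h1
  exact (mul_eq_zero.mp h1).resolve_left (by exact_mod_cast hm)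

theorem alpfDivQuot_mul {m : ℕ} {y y' : Fˣ} (hy : ∀ v : Place K F, (m : ℤ) ∣ v.ord (y : F)) :
    alpfDivQuot (K := K) m (y * y') = alpfDivQuot (K := K) m y + alpfDivQuot (K := K) m y' := by
  ext v
  rw [Finsupp.add_apply, alpfDivQuot_apply, alpfDivQuot_apply, alpfDivQuot_apply, Units.val_mul,
    v.ord_mul y.ne_zero y'.ne_zero]
  exact Int.add_ediv_of_dvd_left (hy v)

/-- the class `[div(y)/m]` -/
noncomputable def alpfClass {m : ℕ} (hm : m ≠ 0) (y : Fˣ)
    (hy : ∀ v : Place K F, (m : ℤ) ∣ v.ord (y : F)) : Pic0 K F :=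
  Pic0.mk ⟨alpfDivQuot (K := K) m y, alpfDivQuot_degree hm hy⟩

theorem alpfClass_mul {m : ℕ} (hm : m ≠ 0) (y y' : Fˣ)
    (hy : ∀ v : Place K F, (m : ℤ) ∣ v.ord (y : F))
    (hy' : ∀ v : Place K F, (m : ℤ) ∣ v.ord (y' : F))
    (hyy' : ∀ v : Place K F, (m : ℤ) ∣ v.ord ((y * y' : Fˣ) : F)) :
    alpfClass hm (y * y') hyy' = alpfClass hm y hy + alpfClass hm y' hy' := by
  unfold alpfClass
  rw [← Pic0.mk_add]
  congr 1
  apply Subtype.ext
  exact alpfDivQuot_mul hy

/-- the class of an `m`-th power vanishes -/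
theorem alpfClass_pow {m : ℕ} (hm : m ≠ 0) (t : Fˣ)
    (hy : ∀ v : Place K F, (m : ℤ) ∣ v.ord ((t ^ m : Fˣ) : F)) :
    alpfClass hm (t ^ m) hy = 0 := by
  unfold alpfClass Pic0.mk
  rw [QuotientAddGroup.eq_zero_iff, AddSubgroup.mem_addSubgroupOf]
  refine ⟨(t : F), t.ne_zero, fun v => ?_⟩
  show alpfDivQuot (K := K) m (t ^ m) v = _
  rw [alpfDivQuot_apply, Units.val_pow_eq_pow_val, ← zpow_natCast, v.ord_zpow]
  exact Int.mul_ediv_cancel_left _ (by exact_mod_cast hm)

/-- every `m`-torsion class is of the form `[div(y)/m]` -/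
theorem alpf_exists_class {m : ℕ} (hm : m ≠ 0) (x : Pic0 K F) (hx : (m : ℤ) • x = 0) :
    ∃ (y : Fˣ) (hy : ∀ v : Place K F, (m : ℤ) ∣ v.ord (y : F)), alpfClass hm y hy = x := by
  obtain ⟨D, rfl⟩ := Pic0.mk_surjective x
  have h1 : Pic0.mk ((m : ℤ) • D) = 0 := by
    have : Pic0.mk ((m : ℤ) • D) = (m : ℤ) • Pic0.mk D := by
      unfold Pic0.mk
      exact QuotientAddGroup.mk_zsmul _ D (m : ℤ)
    rw [this, hx]
  unfold Pic0.mk at h1
  rw [QuotientAddGroup.eq_zero_iff, AddSubgroup.mem_addSubgroupOf] at h1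
  obtain ⟨g, hg0, hg⟩ := h1
  have hgv : ∀ v : Place K F, v.ord g = (m : ℤ) * (D : Divisor K F) v := by
    intro v
    rw [← hg v]
    simp
  have hy : ∀ v : Place K F, (m : ℤ) ∣ v.ord ((Units.mk0 g hg0 : Fˣ) : F) := by
    intro v
    rw [Units.val_mk0, hgv v]
    exact dvd_mul_right _ _
  refine ⟨Units.mk0 g hg0, hy, ?_⟩
  unfold alpfClass
  congr 1
  apply Subtype.ext
  ext v
  show alpfDivQuot (K := K) m (Units.mk0 g hg0) v = _
  rw [alpfDivQuot_apply, Units.val_mk0, hgv v]
  exact Int.mul_ediv_cancel_left _ (by exact_mod_cast hm)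

end General

/-! ### The modular function field -/

section Modular

variable (N : ℕ) [NeZero N]

instance alpf_hasPrincipalDivisors :
    HasPrincipalDivisors Kbar ↥(laurentBaseChange Kbar (modularFunctionFieldFull N)) :=
  Fermat.Agent.Curve.hasPrincipalDivisors (Fermat.Agent.S24Lib.isFunctionFieldGen_jBar N)

/-- the Kummer groups modulo `m`-th powers are finite -/
theorem alpf_finite_kummer (m : ℕ) (hm : m ≠ 0) :
    Finite (tWsub Kbar N m ⧸ tdmPowSub Kbar N m) := by
  haveI : NeZero m := ⟨hm⟩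
  exact Finite.of_equiv _ ((tddDescent N).psiEquiv hm).symm.toEquiv

/-- **the `m`-torsion of `J₀(N)` is finite** -/
theorem alpf_finite (m : ℕ) (hm : m ≠ 0) :
    Finite ↥(Submodule.torsionBy ℤ (JZero N) (m : ℤ)) := by
  classical
  haveI := alpf_finite_kummer N m hm
  -- the map on the Kummer group
  let f : tWsub Kbar N m → JZero N := fun y => alpfClass hm y.1 y.2
  have hf : ∀ y y' : tWsub Kbar N m, (QuotientGroup.mk y : tWsub Kbar N m ⧸ tdmPowSub Kbar N m)
      = QuotientGroup.mk y' → f y = f y' := by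
    intro y y' h
    rw [QuotientGroup.eq] at h
    obtain ⟨t, ht⟩ := mem_tdmPowSub.mp h
    have h1 : y' = y * (y⁻¹ * y') := by group
    have hpow : ∀ v : Place Kbar ↥(laurentBaseChange Kbar (modularFunctionFieldFull N)),
        (m : ℤ) ∣ v.ord ((t ^ m : (↥(laurentBaseChange Kbar (modularFunctionFieldFull N)))ˣ) :
          ↥(laurentBaseChange Kbar (modularFunctionFieldFull N))) := by
      rw [ht]
      exact (y⁻¹ * y').2
    show alpfClass hm y.1 y.2 = alpfClass hm y'.1 y'.2
    have h2 : alpfClass hm y'.1 y'.2 = alpfClass hm (y.1 * t ^ m)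
        (by
          rw [ht]
          have := (y * (y⁻¹ * y')).2
          exact this) := by
      congr 1
      rw [ht]
      exact congrArg Subtype.val h1
    rw [h2, alpfClass_mul hm y.1 (t ^ m) y.2 hpow, alpfClass_pow hm t hpow, add_zero]
  let g : (tWsub Kbar N m ⧸ tdmPowSub Kbar N m) → JZero N := Quotient.lift f (by
    intro a b hab
    exact hf a b (Quotient.sound hab))
  have hsub : ((Submodule.torsionBy ℤ (JZero N) (m : ℤ) : Submodule ℤ (JZero N)) : Set (JZero N))
      ⊆ Set.range g := by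
    intro x hx
    rw [SetLike.mem_coe, Submodule.mem_torsionBy_iff] at hx
    obtain ⟨y, hy, hxy⟩ := alpf_exists_class hm x hx
    exact ⟨QuotientGroup.mk ⟨y, hy⟩, hxy⟩
  exact (Set.Finite.subset (Set.finite_range g) hsub).to_subtype

end Modular

end Fermat.Agent.Alpha
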