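/-
ALPHA / package FIN (helper4), part 2: **open stabilisers on the torsion of `J₀(N)`**.

`alpf_open`: every torsion point `x` of `J₀(N)` is fixed by the absolute Galois group of a number
field (`hopen` of `alph_end`).  Route: `x = [div(y)/m]` and `σ • x = [div(σ y)/m]`; the function `y`
has an open stabiliser (`tdd_exists_finite_fixing`, T1/Dict/ConjFix).
-/
import Fermat.Agent.Lib.Alpha.Fin.Finite
import Fermat.Agent.Lib.T1.Dict.ConjFix

set_option autoImplicit false
set_option linter.style.haveILetI false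

namespace Fermat.Agent.Alpha

open AlgebraicCurve AlgebraicCurve.SemilinearAut ModularCurve Fermat.Agent.T1

local notation "Kbar" => AlgebraicClosure ℚ

section General

variable {K F : Type*} [Field K] [Field F] [Algebra K F] [HasPrincipalDivisors K F]

/-- a semilinear automorphism acting on the units of the function field -/
noncomputable def alpfSmulUnit (g : SemilinearAut K F) : Fˣ →* Fˣ :=
  Units.map ((SemilinearAut.toRingAut g : F ≃+* F) : F →* F)

theorem alpfSmulUnit_coe (g : SemilinearAut K F) (y : Fˣ) :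
    ((alpfSmulUnit g y : Fˣ) : F) = g • (y : F) := rfl

theorem alpf_ord_smulUnit (g : SemilinearAut K F) (y : Fˣ) (w : Place K F) :
    w.ord ((alpfSmulUnit g y : Fˣ) : F) = (g⁻¹ • w).ord (y : F) := by
  rw [alpfSmulUnit_coe]
  have h := SemilinearAut.ord_smul g (g⁻¹ • w) (y : F)
  rw [smul_inv_smul] at h
  exact h

theorem alpf_dvd_smulUnit {m : ℕ} (g : SemilinearAut K F) {y : Fˣ}
    (hy : ∀ v : Place K F, (m : ℤ) ∣ v.ord (y : F)) :
    ∀ v : Place K F, (m : ℤ) ∣ v.ord ((alpfSmulUnit g y : Fˣ) : F) := by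
  intro v
  rw [alpf_ord_smulUnit]
  exact hy _

/-- **equivariance of the Kummer map** -/
theorem alpfClass_smul {m : ℕ} (hm : m ≠ 0) (g : SemilinearAut K F) (y : Fˣ)
    (hy : ∀ v : Place K F, (m : ℤ) ∣ v.ord (y : F)) :
    g • alpfClass hm y hy = alpfClass hm (alpfSmulUnit g y) (alpf_dvd_smulUnit g hy) := by
  unfold alpfClass
  rw [pic0_smul_mk]
  congr 1
  apply Subtype.ext
  rw [coe_degZeroSMulHom]
  ext w
  rw [divisor_smul_apply]
  show alpfDivQuot (K := K) m y (g⁻¹ • w) = alpfDivQuot (K := K) m (alpfSmulUnit g y) w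
  rw [alpfDivQuot_apply, alpfDivQuot_apply, alpf_ord_smulUnit]

end General

section Modular

variable (N : ℕ) [NeZero N]

/-- **open stabilisers**: every torsion point of `J₀(N)` is fixed by the absolute Galois group of a
number field -/
theorem alpf_open (m : ℕ) (hm : m ≠ 0) (x : JZero N) (hx : (m : ℤ) • x = 0) :
    ∃ L : IntermediateField ℚ Kbar, FiniteDimensional ℚ L ∧
      ∀ σ : Kbar ≃ₐ[ℚ] Kbar, (∀ a ∈ L, σ a = a) → σ • x = x := by
  obtain ⟨y, hy, rfl⟩ := alpf_exists_class hm x hx
  obtain ⟨L, hL, hfix⟩ := tdd_exists_finite_fixing N (y : ↥(modularFunctionFieldBar N))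
  refine ⟨L, hL, fun σ hσ => ?_⟩
  rw [galois_smul_pic0_def, alpfClass_smul hm]
  congr 1
  apply Units.ext
  rw [alpfSmulUnit_coe]
  exact hfix σ hσ

end Modular

end Fermat.Agent.Alpha
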