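/-
ALPHA / package FIN (helper4), part 3: the finite `G_ℚ`-module `V = J₀(N)[m]` in the shape
consumed by `alph_end`: additive group structure (Mathlib), `DistribMulAction` (restriction of the
action on `JZero N`), `Fintype`, open stabilisers.
-/
import Fermat.Agent.Lib.Alpha.Fin.Open

set_option autoImplicit false
set_option linter.style.haveILetI false

namespace Fermat.Agent.Alpha

open AlgebraicCurve ModularCurve

local notation "Kbar" => AlgebraicClosure ℚ
local notation "GQ" => (AlgebraicClosure ℚ ≃ₐ[ℚ] AlgebraicClosure ℚ)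

variable (N : ℕ) [NeZero N]

theorem alpf_smul_mem (m : ℤ) (σ : GQ) {x : JZero N}
    (hx : x ∈ Submodule.torsionBy ℤ (JZero N) m) :
    σ • x ∈ Submodule.torsionBy ℤ (JZero N) m := by
  rw [Submodule.mem_torsionBy_iff] at hx ⊢
  have h := map_zsmul (DistribMulAction.toAddMonoidHom (JZero N) σ) m x
  rw [DistribMulAction.toAddMonoidHom_apply, DistribMulAction.toAddMonoidHom_apply] at h
  rw [← h, hx, smul_zero]

/-- the Galois action on the torsion of `J₀(N)` -/
noncomputable instance alpfTorsAction (m : ℤ) :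
    DistribMulAction GQ ↥(Submodule.torsionBy ℤ (JZero N) m) where
  smul σ x := ⟨σ • (x : JZero N), alpf_smul_mem N m σ x.2⟩
  one_smul x := Subtype.ext (one_smul GQ (x : JZero N))
  mul_smul σ τ x := Subtype.ext (mul_smul σ τ (x : JZero N))
  smul_zero σ := Subtype.ext (smul_zero σ)
  smul_add σ x y := Subtype.ext (smul_add σ (x : JZero N) (y : JZero N))

@[simp]
theorem alpfTorsAction_coe (m : ℤ) (σ : GQ) (x : ↥(Submodule.torsionBy ℤ (JZero N) m)) :
    ((σ • x : ↥(Submodule.torsionBy ℤ (JZero N) m)) : JZero N) = σ • (x : JZero N) := rfl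

/-- `J₀(N)[m]` is a finite type -/
noncomputable def alpfFintype (m : ℕ) (hm : m ≠ 0) :
    Fintype ↥(Submodule.torsionBy ℤ (JZero N) (m : ℤ)) :=
  haveI := alpf_finite N m hm
  Fintype.ofFinite _

/-- open stabilisers, in the shape of `alph_end` -/
theorem alpf_hopen (m : ℕ) (hm : m ≠ 0) (x : ↥(Submodule.torsionBy ℤ (JZero N) (m : ℤ))) :
    ∃ L : IntermediateField ℚ Kbar, FiniteDimensional ℚ L ∧
      ∀ σ : GQ, (∀ a ∈ L, σ a = a) → σ • x = x := by
  obtain ⟨L, hL, h⟩ := alpf_open N m hm (x : JZero N) ((Submodule.mem_torsionBy_iff _ _).mp x.2)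
  exact ⟨L, hL, fun σ hσ => Subtype.ext (h σ hσ)⟩

end Fermat.Agent.Alpha
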