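/-
ALPHA / package FIN (helper4), part 4: level lowering and the reduction of S19 to the existence of
an order at the GOOD levels (`4 ∣ M ∨ 9 ∣ M`, `ℓ ∤ M`).

* `alpfPullTors N e m` : `J₀(N)[m] →+ J₀(N e)[m]`, the restriction of `t3pPull` (injective,
  `G_ℚ`-equivariant);
* `alpf_level` : `AlphHasOrder ℓ J₀(N e)[ℓ^k] → AlphHasOrder ℓ J₀(N)[ℓ^k]`;
* `alpf_exists_good` : for `ℓ ∤ N` there is `e ≠ 0` with `N e` good and `ℓ ∤ N e`;
* `alpf_flat_of_order` : the literal S19 existential from `AlphHasOrder ℓ J₀(p)[ℓ^k]`;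
* `alpf_s19_of_good` : the literal S19 statement from orders at all good levels.
-/
import Fermat.Agent.Lib.Alpha.Fin.Tors
import Fermat.Agent.Lib.Alpha.Hopf.Closure
import Fermat.Agent.Lib.T3.Pull.Torsion

set_option autoImplicit false
set_option linter.style.haveILetI false

namespace Fermat.Agent.Alpha

open AlgebraicCurve ModularCurve Fermat.Agent.T3

local notation "Kbar" => AlgebraicClosure ℚ
local notation "GQ" => (AlgebraicClosure ℚ ≃ₐ[ℚ] AlgebraicClosure ℚ)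

section Pull

variable (N e : ℕ) [NeZero N] [NeZero e]

theorem alpf_pull_mem (m : ℤ) {x : JZero N} (hx : x ∈ Submodule.torsionBy ℤ (JZero N) m) :
    t3pPull N e x ∈ Submodule.torsionBy ℤ (JZero (N * e)) m := by
  rw [Submodule.mem_torsionBy_iff] at hx ⊢
  rw [← map_zsmul, hx, map_zero]

/-- the pull-back on `m`-torsion -/
noncomputable def alpfPullTors (m : ℤ) :
    ↥(Submodule.torsionBy ℤ (JZero N) m) →+ ↥(Submodule.torsionBy ℤ (JZero (N * e)) m) where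
  toFun x := ⟨t3pPull N e (x : JZero N), alpf_pull_mem N e m x.2⟩
  map_zero' := Subtype.ext (map_zero (t3pPull N e))
  map_add' x y := Subtype.ext (map_add (t3pPull N e) (x : JZero N) (y : JZero N))

@[simp]
theorem alpfPullTors_coe (m : ℤ) (x : ↥(Submodule.torsionBy ℤ (JZero N) m)) :
    ((alpfPullTors N e m x : ↥(Submodule.torsionBy ℤ (JZero (N * e)) m)) : JZero (N * e)) =
      t3pPull N e (x : JZero N) := rfl

theorem alpfPullTors_smul (m : ℤ) (σ : GQ) (x : ↥(Submodule.torsionBy ℤ (JZero N) m)) :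
    alpfPullTors N e m (σ • x) = σ • alpfPullTors N e m x :=
  Subtype.ext (t3pPull_galois N e σ (x : JZero N))

theorem alpfPullTors_injective (m : ℕ) (hm : m ≠ 0) :
    Function.Injective (alpfPullTors N e (m : ℤ)) := by
  rw [injective_iff_map_eq_zero]
  intro x hx
  have hx1 : (m : ℤ) • (x : JZero N) = 0 := (Submodule.mem_torsionBy_iff _ _).mp x.2
  have hx2 : m • (x : JZero N) = 0 := by rwa [natCast_zsmul] at hx1
  have h0 : t3pPull N e (x : JZero N) = 0 := congrArg Subtype.val hx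
  exact Subtype.ext (t3pPull_eq_zero_of_torsion N e hm (x : JZero N) hx2 h0)

/-- **level lowering**: an order for `J₀(N e)[ℓ^k]` restricts to an order for `J₀(N)[ℓ^k]` -/
theorem alpf_level (ℓ : ℕ) [Fact ℓ.Prime] (k : ℕ)
    (h : AlphHasOrder ℓ ↥(Submodule.torsionBy ℤ (JZero (N * e)) ((ℓ : ℤ) ^ k))) :
    AlphHasOrder ℓ ↥(Submodule.torsionBy ℤ (JZero N) ((ℓ : ℤ) ^ k)) := by
  have hℓ : (ℓ ^ k : ℕ) ≠ 0 := pow_ne_zero k (Fact.out : ℓ.Prime).ne_zero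
  have hcast : (((ℓ ^ k : ℕ) : ℕ) : ℤ) = (ℓ : ℤ) ^ k := by push_cast; rfl
  have hinj : Function.Injective (alpfPullTors N e ((ℓ : ℤ) ^ k)) := by
    have := alpfPullTors_injective N e (ℓ ^ k) hℓ
    rwa [hcast] at this
  exact h.of_injective (alpfPullTors N e ((ℓ : ℤ) ^ k)) hinj
    (fun σ w => alpfPullTors_smul N e ((ℓ : ℤ) ^ k) σ w)

end Pull

/-- for `ℓ ∤ N` some multiple `N e` is a good level not divisible by `ℓ` -/
theorem alpf_exists_good (N : ℕ) (ℓ : ℕ) (hℓ : ℓ.Prime) (hN : ¬ ℓ ∣ N) :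
    ∃ e : ℕ, e ≠ 0 ∧ (4 ∣ N * e ∨ 9 ∣ N * e) ∧ ¬ ℓ ∣ N * e := by
  by_cases h2 : ℓ = 2
  · refine ⟨9, by norm_num, Or.inr (Dvd.intro_left N rfl), ?_⟩
    intro h
    rcases (Nat.Prime.dvd_mul hℓ).mp h with h | h
    · exact hN h
    · subst h2
      omega
  · refine ⟨4, by norm_num, Or.inl (Dvd.intro_left N rfl), ?_⟩
    intro h
    rcases (Nat.Prime.dvd_mul hℓ).mp h with h | h
    · exact hN h
    · have h4 : ℓ ∣ 2 ^ 2 := by norm_num; exact h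
      have := (Nat.prime_dvd_prime_iff_eq hℓ Nat.prime_two).mp (hℓ.dvd_of_dvd_pow h4)
      exact h2 this

/-- the literal S19 existential from an order -/
theorem alpf_flat_of_order (p : ℕ) [NeZero p] (ℓ : ℕ) [Fact ℓ.Prime] (k : ℕ)
    (h : AlphHasOrder ℓ ↥(Submodule.torsionBy ℤ (JZero p) ((ℓ : ℤ) ^ k))) :
    ∃ (H : Type) (_ : CommRing H) (_ : HopfAlgebra (GaloisRep.ratLocalizedAt ℓ) H),
      Module.Finite (GaloisRep.ratLocalizedAt ℓ) H ∧ Module.Flat (GaloisRep.ratLocalizedAt ℓ) H ∧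
      Coalgebra.IsCocomm (GaloisRep.ratLocalizedAt ℓ) H ∧
      ∃ e : WithConv (H →ₐ[GaloisRep.ratLocalizedAt ℓ] AlgebraicClosure ℚ) ≃
          ↥(Submodule.torsionBy ℤ (JZero p) ((ℓ : ℤ) ^ k)),
        (∀ f g, e (f * g) = e f + e g) ∧
        ∀ (σ : AlgebraicClosure ℚ ≃ₐ[ℚ] AlgebraicClosure ℚ)
          (f g : WithConv (H →ₐ[GaloisRep.ratLocalizedAt ℓ] AlgebraicClosure ℚ)),
          (∀ h : H, g h = σ (f h)) → ((e g : JZero p)) = σ • (e f : JZero p) := by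
  have hℓ : (ℓ ^ k : ℕ) ≠ 0 := pow_ne_zero k (Fact.out : ℓ.Prime).ne_zero
  have hcast : (((ℓ ^ k : ℕ) : ℕ) : ℤ) = (ℓ : ℤ) ^ k := by push_cast; rfl
  haveI : Finite ↥(Submodule.torsionBy ℤ (JZero p) ((ℓ : ℤ) ^ k)) := by
    have := alpf_finite p (ℓ ^ k) hℓ
    rwa [hcast] at this
  letI : Fintype ↥(Submodule.torsionBy ℤ (JZero p) ((ℓ : ℤ) ^ k)) := Fintype.ofFinite _
  obtain ⟨H, i1, i2, h1, h2, h3, e, he1, he2⟩ := h.flat
  refine ⟨H, i1, i2, h1, h2, h3, e, he1, fun σ f g hfg => ?_⟩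
  have := he2 σ f g hfg
  rw [this]
  rfl

/-- **S19 from orders at the good levels** -/
theorem alpf_s19_of_good
    (hgood : ∀ (M : ℕ) [NeZero M] (ℓ : ℕ) [Fact ℓ.Prime], (4 ∣ M ∨ 9 ∣ M) → ¬ ℓ ∣ M → ∀ k : ℕ,
      AlphHasOrder ℓ ↥(Submodule.torsionBy ℤ (JZero M) ((ℓ : ℤ) ^ k)))
    (p : ℕ) [NeZero p] (ℓ : ℕ) [Fact ℓ.Prime] (hℓp : ¬ ℓ ∣ p) (k : ℕ) :
    ∃ (H : Type) (_ : CommRing H) (_ : HopfAlgebra (GaloisRep.ratLocalizedAt ℓ) H),
      Module.Finite (GaloisRep.ratLocalizedAt ℓ) H ∧ Module.Flat (GaloisRep.ratLocalizedAt ℓ) H ∧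
      Coalgebra.IsCocomm (GaloisRep.ratLocalizedAt ℓ) H ∧
      ∃ e : WithConv (H →ₐ[GaloisRep.ratLocalizedAt ℓ] AlgebraicClosure ℚ) ≃
          ↥(Submodule.torsionBy ℤ (JZero p) ((ℓ : ℤ) ^ k)),
        (∀ f g, e (f * g) = e f + e g) ∧
        ∀ (σ : AlgebraicClosure ℚ ≃ₐ[ℚ] AlgebraicClosure ℚ)
          (f g : WithConv (H →ₐ[GaloisRep.ratLocalizedAt ℓ] AlgebraicClosure ℚ)),
          (∀ h : H, g h = σ (f h)) → ((e g : JZero p)) = σ • (e f : JZero p) := by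
  obtain ⟨e, he, hg, hℓ⟩ := alpf_exists_good p ℓ (Fact.out : ℓ.Prime) hℓp
  haveI : NeZero e := ⟨he⟩
  exact alpf_flat_of_order p ℓ k (alpf_level p e ℓ k (hgood (p * e) ℓ hg hℓ k))

end Fermat.Agent.Alpha
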